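import Fermat.Agent.GAL.KLB.Base
import Fermat.Agent.GAL.KL.Lattice
import Fermat.Agent.GAL.KL.ONBasis

/-!
# GAL / KLB-3 : integrality over `K[t]` passes to the reduction (determinant trick)
-/

set_option autoImplicit false

open Polynomial

noncomputable section

namespace Fermat.Agent.GAL.KLB

open Fermat.Agent.GAL.KL Fermat.Agent.GAL.KLC

variable {K F k Γ₀ : Type*} [Field K] [Field F] [Algebra K F] [Field k]
  [LinearOrderedCommGroupWithZero Γ₀] {v : Valuation F Γ₀} {ρ : v.integer →+* LaurentSeries k}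

/-- determinant trick: an eigenvalue of a matrix with entries in the image of `f` is integral. -/
theorem intRed_isIntegralElem {R S : Type*} [CommRing R] [CommRing S] [IsDomain S] (f : R →+* S)
    {d : ℕ} (Mx : Matrix (Fin d) (Fin d) R) (μ : S) (w : Fin d → S) (hw : w ≠ 0)
    (h : ∀ j, μ * w j = ∑ i, f (Mx j i) * w i) : f.IsIntegralElem μ := by
  refine ⟨Mx.charpoly, Mx.charpoly_monic, ?_⟩
  rw [← Polynomial.eval_map, ← Matrix.charpoly_map, Matrix.eval_charpoly]
  rw [← Matrix.exists_mulVec_eq_zero_iff]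
  refine ⟨w, hw, ?_⟩
  funext j
  rw [Matrix.sub_mulVec, Pi.sub_apply, Pi.zero_apply, sub_eq_zero]
  have h1 : (Matrix.mulVec (Matrix.scalar (Fin d) μ) w) j = μ * w j := by
    simp [Matrix.scalar_apply, Matrix.mulVec_diagonal]
  rw [h1, h j]
  rfl

/-- integrality passes to the reduction. -/
theorem isInt_rho [IsAlgClosed K] [CharZero K] (hρ : IsRed K v ρ) (t : v.integer)
    (hG : Gauss K v (t : F)) {d : ℕ} (β : Fin d → F) (hβ : ON K v (t : F) β)
    (hβs : Spans K (t : F) β) (z : v.integer) (hz : IsInt K (t : F) (z : F)) :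
    IsInt k (ρ t) (ρ z) := by
  obtain ⟨b, hb⟩ := exists_basis_BB hG.inj β (ON.inj hG hβ) hβs
  obtain ⟨e, he, hON⟩ := exists_ON_basis hG β hβ hβs (BB K (t : F)) b hb
  have hemem : ∀ j, IsInt K (t : F) (e j) := fun j =>
    (he.2 (e j)).2 ⟨Pi.single j 1, by rw [comb_single, map_one, one_mul]⟩
  have hP : ∀ j, ∃ P : Fin d → K[X], (z : F) * e j = comb K (t : F) P e := fun j =>
    (he.2 _).1 (hz.mul (hemem j))
  choose P hP using hP
  have hv : ∀ j i n, v (algebraMap K F ((P j i).coeff n)) ≤ 1 := by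
    intro j i
    refine (hG (P j i) 1).1 ?_
    refine (hON (P j) 1).1 ?_ i
    rw [← hP j, map_mul, hON.v_eq_one j, mul_one]
    exact z.2
  have hQ : ∀ j i, ∃ Q : (AK K v)[X], Q.map (AK K v).subtype = P j i := fun j i =>
    exists_lift_poly (P j i) (hv j i)
  choose Q hQ using hQ
  let E : Fin d → v.integer := fun j => ⟨e j, le_of_eq (hON.v_eq_one j)⟩
  have hE : ∀ j, z * E j = ∑ i, eval₂ (toInt K v) t (Q j i) * E i := by
    intro j
    apply Subtype.ext
    have h1 : ((∑ i, eval₂ (toInt K v) t (Q j i) * E i : v.integer) : F)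
        = ∑ i, aeval (t : F) (P j i) * e i := by
      rw [← Subring.subtype_apply, map_sum]
      refine Finset.sum_congr rfl fun i _ => ?_
      rw [map_mul, Subring.subtype_apply, Subring.subtype_apply, coe_eval₂_toInt, hQ]
    rw [h1]
    exact hP j
  have hne : ∀ j, ρ (E j) ≠ 0 := by
    intro j h0
    have := (hρ.ker (E j)).1 h0
    rw [show ((E j : v.integer) : F) = e j from rfl, hON.v_eq_one j] at this
    exact lt_irrefl _ this
  -- `d ≠ 0`
  obtain ⟨p1, hp1⟩ := (he.2 1).1 IsInt.one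
  have hd : 0 < d := by
    rcases Nat.eq_zero_or_pos d with rfl | hd
    · simp [comb] at hp1
    · exact hd
  refine intRed_isIntegralElem _ (fun j i => (Q j i).map (resK hρ)) (ρ z) (fun i => ρ (E i))
    (fun h0 => hne ⟨0, hd⟩ (congrFun h0 ⟨0, hd⟩)) fun j => ?_
  rw [← map_mul, hE j, map_sum]
  refine Finset.sum_congr rfl fun i _ => ?_
  rw [map_mul, rho_aeval hρ]
  rfl

end Fermat.Agent.GAL.KLB
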