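import Fermat.Agent.GAL.KLB.Base
import Fermat.Agent.GAL.KLC.GaussON

/-!
# GAL / KLB-5 : (b1).  An element of `F̄` integral over `k[x̄]` and regular at `q = 0` is constant.
-/

set_option autoImplicit false

open Polynomial

noncomputable section

namespace Fermat.Agent.GAL.KLB

open Fermat.Agent.GAL.KL Fermat.Agent.GAL.KLC

variable {K F k Γ₀ : Type*} [Field K] [Field F] [Algebra K F] [Field k]
  [LinearOrderedCommGroupWithZero Γ₀] {v : Valuation F Γ₀} {ρ : v.integer →+* LaurentSeries k}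

/-- the `k[ξ]`-module generated by the powers `ξ'^i`, `i < m`. -/
def B1Mod (ξ ξ' : LaurentSeries k) (m : ℕ) : Set (LaurentSeries k) :=
  {ψ | ∃ P : Fin m → k[X], ψ = ∑ i, aeval ξ (P i) * ξ' ^ (i : ℕ)}

theorem B1Mod.add {ξ ξ' : LaurentSeries k} {m : ℕ} {a b : LaurentSeries k}
    (ha : a ∈ B1Mod ξ ξ' m) (hb : b ∈ B1Mod ξ ξ' m) : a + b ∈ B1Mod ξ ξ' m := by
  obtain ⟨P, rfl⟩ := ha
  obtain ⟨Q, rfl⟩ := hb
  refine ⟨P + Q, ?_⟩
  rw [← Finset.sum_add_distrib]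
  refine Finset.sum_congr rfl fun i _ => ?_
  rw [Pi.add_apply, map_add, add_mul]

theorem B1Mod.zero {ξ ξ' : LaurentSeries k} {m : ℕ} : (0 : LaurentSeries k) ∈ B1Mod ξ ξ' m :=
  ⟨0, by simp⟩

theorem B1Mod.mul {ξ ξ' : LaurentSeries k} {m : ℕ} {a : LaurentSeries k} (E : k[X])
    (ha : a ∈ B1Mod ξ ξ' m) : aeval ξ E * a ∈ B1Mod ξ ξ' m := by
  obtain ⟨P, rfl⟩ := ha
  refine ⟨fun i => E * P i, ?_⟩
  rw [Finset.mul_sum]
  refine Finset.sum_congr rfl fun i _ => ?_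
  rw [map_mul, mul_assoc]

theorem B1Mod.sum {ξ ξ' : LaurentSeries k} {m : ℕ} {ι : Type*} (s : Finset ι)
    (f : ι → LaurentSeries k) (h : ∀ i ∈ s, f i ∈ B1Mod ξ ξ' m) : ∑ i ∈ s, f i ∈ B1Mod ξ ξ' m := by
  classical
  induction s using Finset.induction_on with
  | empty => simpa using B1Mod.zero
  | insert a s ha ih =>
    rw [Finset.sum_insert ha]
    exact B1Mod.add (h a (Finset.mem_insert_self a s))
      (ih fun i hi => h i (Finset.mem_insert_of_mem hi))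

/-- nonzero elements of `B1Mod` have order `≤ 0`. -/
theorem B1Mod.order_le {ξ ξ' : LaurentSeries k} {m : ℕ} (hm : 0 < m) (hξ : ξ.order = -(m : ℤ))
    (hξ' : ξ'.order = -(m : ℤ) + 1) {ψ : LaurentSeries k}
    (hψ : ψ ∈ B1Mod ξ ξ' m) (h0 : ψ ≠ 0) : ψ.order ≤ 0 := by
  obtain ⟨P, rfl⟩ := hψ
  have hξneg : ξ.order < 0 := by rw [hξ]; omega
  have hterm : ∀ i : Fin m, aeval ξ (P i) * ξ' ^ (i : ℕ) ≠ 0 →
      (aeval ξ (P i) * ξ' ^ (i : ℕ)).order = (P i).natDegree * (-(m : ℤ)) + i * (-(m : ℤ) + 1) := by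
    intro i hi
    have hP : P i ≠ 0 := by
      rintro h
      rw [h, map_zero, zero_mul] at hi
      exact hi rfl
    obtain ⟨h1, h2⟩ := order_aeval hξneg (P i) hP
    rw [HahnSeries.order_mul h1 (right_ne_zero_of_mul hi), h2, HahnSeries.order_pow, hξ, hξ']
    simp
  obtain ⟨i₀, -, hi₀, -, -, hord⟩ := GaussON_sum_ne_zero Finset.univ
    (fun i : Fin m => aeval ξ (P i) * ξ' ^ (i : ℕ))
    (by
      intro i _ j _ hi hj hij
      rw [hterm i hi, hterm j hj] at hij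
      have h1 : (m : ℤ) ∣ (i : ℤ) - (j : ℤ) :=
        ⟨(i : ℤ) - j + (P i).natDegree - (P j).natDegree, by linarith⟩
      have hi' : (i : ℤ) < m := by exact_mod_cast i.2
      have hj' : (j : ℤ) < m := by exact_mod_cast j.2
      have hi0 : (0 : ℤ) ≤ i := by positivity
      have hj0 : (0 : ℤ) ≤ j := by positivity
      have h2 : (i : ℤ) - j = 0 := by
        apply Int.eq_zero_of_abs_lt_dvd h1
        rw [abs_lt]
        constructor <;> omega
      apply Fin.ext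
      omega)
    (by
      by_contra hcon
      push Not at hcon
      exact h0 (Finset.sum_eq_zero fun i hi => hcon i hi))
  rw [hord, hterm i₀ hi₀]
  have h1 : (0 : ℤ) ≤ (P i₀).natDegree := by positivity
  have h2 : (0 : ℤ) ≤ (i₀ : ℕ) := by positivity
  have h3 : (1 : ℤ) ≤ m := by exact_mod_cast hm
  nlinarith

/-- (A) every element of `F̄` has a denominator in `k[ξ]`. -/
theorem B1_exists_denom (hρ : IsRed K v ρ) {x x' : F} (hx : x ∈ v.integer) (hx' : x' ∈ v.integer)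
    {m : ℕ} (hG : Gauss K v x) (hON : ON K v x (fun i : Fin m => x' ^ (i : ℕ)))
    (hSp : Spans K x (fun i : Fin m => x' ^ (i : ℕ))) (w : v.integer) :
    ∃ D : k[X], D ≠ 0 ∧ aeval (ρ ⟨x, hx⟩) D * ρ w ∈ B1Mod (ρ ⟨x, hx⟩) (ρ ⟨x', hx'⟩) m := by
  obtain ⟨q, p, hq, hqp⟩ := hSp (w : F)
  obtain ⟨i₀, hi₀⟩ := hG.exists_coeff q
  have hq0 : aeval x q ≠ 0 := fun h => hq (hG.inj q h)
  have hc : q.coeff i₀ ≠ 0 := by
    intro h
    rw [h, map_zero, map_zero, map_eq_zero] at hi₀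
    exact hq0 hi₀
  set c := q.coeff i₀ with hcdef
  set q' : K[X] := C c⁻¹ * q with hq'
  set p' : Fin m → K[X] := fun i => C c⁻¹ * p i with hp'
  have hvc : v (algebraMap K F c) ≠ 0 := by
    rw [Ne, map_eq_zero, map_eq_zero]; exact hc
  have hvq' : v (aeval x q') = 1 := by
    rw [hq', map_mul, aeval_C, map_mul, hi₀, map_inv₀, map_inv₀, inv_mul_cancel₀ hvc]
  have hrel : aeval x q' * (w : F) = comb K x p' (fun i : Fin m => x' ^ (i : ℕ)) := by
    rw [hp', comb_smul, ← hqp, hq', map_mul, mul_assoc]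
  have hq'c : ∀ i, v (algebraMap K F (q'.coeff i)) ≤ 1 := (hG q' 1).mp hvq'.le
  have hcomb : v (comb K x p' (fun i : Fin m => x' ^ (i : ℕ))) ≤ 1 := by
    rw [← hrel, map_mul, hvq', one_mul]
    exact w.2
  have hp'v : ∀ i, v (aeval x (p' i)) ≤ 1 := (hON p' 1).mp hcomb
  have hp'c : ∀ i j, v (algebraMap K F ((p' i).coeff j)) ≤ 1 := fun i => (hG (p' i) 1).mp (hp'v i)
  obtain ⟨qb, hqi, hqρ, -, hqb⟩ := exists_red_poly hρ hx q' hq'c
  choose pb hpi hpρ _ _ using fun i => exists_red_poly hρ hx (p' i) (hp'c i)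
  refine ⟨qb, ?_, pb, ?_⟩
  · intro h
    have h1 := (hqb i₀).mp (by rw [h, coeff_zero])
    rw [hq', coeff_C_mul, ← hcdef, inv_mul_cancel₀ hc, map_one, map_one] at h1
    exact lt_irrefl _ h1
  · have h1 : (⟨aeval x q', hqi⟩ : v.integer) * w =
        ∑ i : Fin m, (⟨aeval x (p' i), hpi i⟩ : v.integer) * (⟨x', hx'⟩ : v.integer) ^ (i : ℕ) := by
      apply Subtype.ext
      rw [Subring.coe_mul, AddSubmonoidClass.coe_finset_sum]
      exact hrel
    have h2 := congrArg ρ h1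
    rw [map_mul, hqρ, map_sum] at h2
    rw [h2]
    refine Finset.sum_congr rfl fun i _ => ?_
    rw [map_mul, map_pow, hpρ]

/-- (B) a common denominator for all the powers of an integral element. -/
theorem B1_exists_denom_pow (hρ : IsRed K v ρ) {x x' : F} (hx : x ∈ v.integer)
    (hx' : x' ∈ v.integer) {m : ℕ} (hG : Gauss K v x)
    (hON : ON K v x (fun i : Fin m => x' ^ (i : ℕ)))
    (hSp : Spans K x (fun i : Fin m => x' ^ (i : ℕ))) (z : v.integer)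
    (hz : IsInt k (ρ ⟨x, hx⟩) (ρ z)) :
    ∃ D : k[X], D ≠ 0 ∧ ∀ N : ℕ,
      aeval (ρ ⟨x, hx⟩) D * ρ z ^ N ∈ B1Mod (ρ ⟨x, hx⟩) (ρ ⟨x', hx'⟩) m := by
  classical
  obtain ⟨P, hP, hPz⟩ := hz
  choose D hD0 hD using fun i : ℕ => B1_exists_denom hρ hx hx' hG hON hSp (z ^ i)
  set r := P.natDegree with hr
  refine ⟨∏ i ∈ Finset.range r, D i, Finset.prod_ne_zero_iff.mpr fun i _ => hD0 i, fun N => ?_⟩
  have hlow : ∀ i ∈ Finset.range r, aeval (ρ ⟨x, hx⟩) (∏ i ∈ Finset.range r, D i) * ρ z ^ i ∈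
      B1Mod (ρ ⟨x, hx⟩) (ρ ⟨x', hx'⟩) m := by
    intro i hi
    obtain ⟨E, hE⟩ := Finset.dvd_prod_of_mem D hi
    rw [hE, mul_comm (D i) E, map_mul, mul_assoc, ← map_pow]
    exact B1Mod.mul E (hD i)
  -- division with remainder
  set R : k[X][X] := (X ^ N) %ₘ P with hR
  have hdeg : R.natDegree < r ∨ r = 0 := by
    rcases Nat.eq_zero_or_pos r with h | h
    · exact Or.inr h
    · left
      have hP1 : P ≠ 1 := by
        rintro rfl
        rw [hr, natDegree_one] at h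
        exact lt_irrefl _ h
      exact natDegree_modByMonic_lt _ hP hP1
  have hev : ρ z ^ N = eval₂ ((aeval (ρ ⟨x, hx⟩) : k[X] →ₐ[k] LaurentSeries k) : k[X] →+* _)
      (ρ z) R := by
    have h1 := modByMonic_add_div (X ^ N : k[X][X]) P
    have h2 := congrArg (eval₂ ((aeval (ρ ⟨x, hx⟩) : k[X] →ₐ[k] LaurentSeries k) : k[X] →+* _)
      (ρ z)) h1
    rw [eval₂_add, eval₂_mul, hPz, zero_mul, add_zero, eval₂_pow, eval₂_X] at h2
    exact h2.symm
  rcases hdeg with hdeg | hr0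
  · rw [hev, eval₂_eq_sum_range' _ hdeg, Finset.mul_sum]
    refine B1Mod.sum _ _ fun i hi => ?_
    rw [mul_left_comm]
    exact B1Mod.mul (R.coeff i) (hlow i hi)
  · -- `P = 1`, so `0 = 1` in a field: impossible
    have hP1 : P = 1 := by
      rw [hr] at hr0
      exact (hP.natDegree_eq_zero).mp hr0
    rw [hP1, eval₂_one] at hPz
    exact absurd hPz one_ne_zero

/-- **(b1)**: an element of `F̄` which is integral over `k[x̄]` and regular at `q = 0` is constant. -/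
theorem b1_of_isRed (hρ : IsRed K v ρ) {x x' : F} (hx : x ∈ v.integer) (hx' : x' ∈ v.integer)
    {m : ℕ} (hm : 0 < m) (hxo : (ρ ⟨x, hx⟩).order = -(m : ℤ))
    (hxo' : (ρ ⟨x', hx'⟩).order = -(m : ℤ) + 1)
    (hG : Gauss K v x) (hON : ON K v x (fun i : Fin m => x' ^ (i : ℕ)))
    (hSp : Spans K x (fun i : Fin m => x' ^ (i : ℕ)))
    (z : v.integer) (hz : IsInt k (ρ ⟨x, hx⟩) (ρ z)) (h0 : ∀ i : ℤ, i < 0 → (ρ z).coeff i = 0) :
    ∃ c : k, ρ z = HahnSeries.C c := by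
  refine ⟨(ρ z).coeff 0, ?_⟩
  obtain ⟨a, ha⟩ := resK_surjective hρ ((ρ z).coeff 0)
  set z1 : v.integer := z - toInt K v a with hz1
  have hρz1 : ρ z1 = ρ z - HahnSeries.C ((ρ z).coeff 0) := by
    rw [hz1, map_sub, rho_toInt' hρ, ha]
  by_contra hne
  have hφ0 : ρ z1 ≠ 0 := by
    rw [hρz1, sub_ne_zero]; exact hne
  have hcoef : ∀ i : ℤ, i ≤ 0 → (ρ z1).coeff i = 0 := by
    intro i hi
    rw [hρz1, HahnSeries.coeff_sub]
    rcases hi.lt_or_eq with h | rfl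
    · rw [h0 i h, HahnSeries.C_apply, HahnSeries.coeff_single_of_ne h.ne, sub_zero]
    · rw [HahnSeries.C_apply, HahnSeries.coeff_single_same, sub_self]
  have hord : 0 < (ρ z1).order := by
    by_contra hcon
    exact hφ0 (HahnSeries.coeff_order_eq_zero.mp (hcoef _ (not_lt.mp hcon)))
  have hint : IsInt k (ρ ⟨x, hx⟩) (ρ z1) := by
    rw [hρz1, ← GaussON_algebraMap]
    exact hz.sub (IsInt.algebraMap _)
  obtain ⟨D, hD0, hD⟩ := B1_exists_denom_pow hρ hx hx' hG hON hSp z1 hint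
  have hξneg : (ρ ⟨x, hx⟩).order < 0 := by rw [hxo]; omega
  obtain ⟨hD1, hD2⟩ := order_aeval hξneg D hD0
  set N := m * D.natDegree + 1 with hN
  have hne0 : aeval (ρ ⟨x, hx⟩) D * ρ z1 ^ N ≠ 0 := mul_ne_zero hD1 (pow_ne_zero _ hφ0)
  have hle := B1Mod.order_le hm hxo hxo' (hD N) hne0
  rw [HahnSeries.order_mul hD1 (pow_ne_zero _ hφ0), hD2, HahnSeries.order_pow, hxo] at hle
  have h1 : (1 : ℤ) ≤ (ρ z1).order := hord
  have h2 : (N : ℤ) = m * D.natDegree + 1 := by rw [hN]; push_cast; ring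
  simp only [nsmul_eq_mul] at hle
  have h3 : (N : ℤ) * 1 ≤ N * (ρ z1).order := by
    apply mul_le_mul_of_nonneg_left h1; positivity
  nlinarith

end Fermat.Agent.GAL.KLB
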