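import Fermat.Agent.GAL.KLB.Base
import Fermat.Agent.GAL.KL.Main

/-!
# GAL / KLB : DIM-2.  Coordinate functionals of an orthonormal `K[t]`-basis of the chart ring
-/

set_option autoImplicit false

open Polynomial

noncomputable section

namespace Fermat.Agent.GAL.KLB

open Fermat.Agent.GAL.KL Fermat.Agent.GAL.KLC

variable {K F k Γ₀ : Type*} [Field K] [Field F] [Algebra K F] [Field k]
  [LinearOrderedCommGroupWithZero Γ₀] {v : Valuation F Γ₀} {ρ : v.integer →+* LaurentSeries k}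

/-- `p ↦ comb K t p e` as a `K`-linear map. -/
def funcComb (K : Type*) {F : Type*} [Field K] [Field F] [Algebra K F] (t : F) {d : ℕ}
    (e : Fin d → F) : (Fin d → K[X]) →ₗ[K] F :=
  ∑ i, (LinearMap.mulRight K (e i)) ∘ₗ (aeval t : K[X] →ₐ[K] F).toLinearMap ∘ₗ
    (LinearMap.proj i : (Fin d → K[X]) →ₗ[K] K[X])

theorem funcComb_apply (t : F) {d : ℕ} (e : Fin d → F) (p : Fin d → K[X]) :
    funcComb K t e p = comb K t p e := by
  simp [funcComb, comb]

theorem hasFun_BBs [IsAlgClosed K] [CharZero K] {t : F} (hG : Gauss K v t) {d : ℕ} (β : Fin d → F)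
    (hβ : ON K v t β) (hβs : Spans K t β) : HasFun K v (BBs K t) := by
  obtain ⟨b, hb⟩ := exists_basis_BB hG.inj β (hβ.inj hG) hβs
  obtain ⟨e, he, heON⟩ := exists_ON_basis hG β hβ hβs _ b hb
  have hker : LinearMap.ker (funcComb K t e) = ⊥ := by
    rw [LinearMap.ker_eq_bot']
    intro p hp
    rw [funcComb_apply] at hp
    exact he.1 p hp
  obtain ⟨Ψ, hΨ⟩ := LinearMap.exists_leftInverse_of_injective (funcComb K t e) hker
  have hΨ' : ∀ p : Fin d → K[X], Ψ (comb K t p e) = p := by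
    intro p
    rw [← funcComb_apply]
    exact LinearMap.congr_fun hΨ p
  intro z hz hz0
  obtain ⟨p, rfl⟩ := (he.2 z).mp hz
  have hp0 : p ≠ 0 := by
    rintro rfl
    apply hz0
    simp [comb]
  obtain ⟨i₁, -⟩ := Function.ne_iff.mp hp0
  obtain ⟨i₀, -, hmax⟩ := Finset.exists_max_image Finset.univ (fun i => v (aeval t (p i)))
    ⟨i₁, Finset.mem_univ _⟩
  have hvz : v (comb K t p e) = v (aeval t (p i₀)) :=
    le_antisymm ((heON p _).mpr fun i => hmax i (Finset.mem_univ _)) ((heON p _).mp le_rfl i₀)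
  obtain ⟨j₀, hj₀⟩ := hG.exists_coeff (p i₀)
  refine ⟨(lcoeff K j₀) ∘ₗ (LinearMap.proj i₀ : (Fin d → K[X]) →ₗ[K] K[X]) ∘ₗ Ψ, ?_, ?_⟩
  · simp only [LinearMap.comp_apply, hΨ', LinearMap.proj_apply, lcoeff_apply]
    rw [hvz, hj₀]
  · intro z' hz'
    obtain ⟨p', rfl⟩ := (he.2 z').mp hz'
    simp only [LinearMap.comp_apply, hΨ', LinearMap.proj_apply, lcoeff_apply]
    exact ((hG (p' i₀) _).mp le_rfl j₀).trans ((heON p' _).mp le_rfl i₀)

end Fermat.Agent.GAL.KLB
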