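import Fermat.Agent.GAL.KLB.Base

/-!
# GAL / KLB-4 : `dim S + g ≤ s + 1` from (b1), (b2)  (pure linear algebra in `k((q))`)
-/

set_option autoImplicit false

open Polynomial

noncomputable section

namespace Fermat.Agent.GAL.KLB

open Fermat.Agent.GAL.KL Fermat.Agent.GAL.KLC

variable {K F k Γ₀ : Type*} [Field K] [Field F] [Algebra K F] [Field k]
  [LinearOrderedCommGroupWithZero Γ₀] {v : Valuation F Γ₀} {ρ : v.integer →+* LaurentSeries k}

theorem exists_trunc_linearIndependent {g : ℕ} (f : Fin g → LaurentSeries k)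
    (hf : LinearIndependent k f) (hf0 : ∀ j, 0 < (f j).order) :
    ∃ s₀ : ℕ, ∀ s, s₀ ≤ s →
      LinearIndependent k (fun j : Fin g => fun i : Fin s => (f j).coeff ((i : ℤ) + 1)) := by
  classical
  -- the decreasing chain of relation spaces
  let V : ℕ → Submodule k (Fin g → k) := fun s =>
    { carrier := {c | ∀ i : ℕ, i < s → ∑ j, c j * (f j).coeff ((i : ℤ) + 1) = 0}
      add_mem' := by
        intro a b ha hb i hi
        simp only [Pi.add_apply, add_mul, Finset.sum_add_distrib]
        rw [ha i hi, hb i hi, add_zero]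
      zero_mem' := by
        intro i _
        simp
      smul_mem' := by
        intro r a ha i hi
        simp only [Pi.smul_apply, smul_eq_mul, mul_assoc]
        rw [← Finset.mul_sum, ha i hi, mul_zero] }
  have hVanti : ∀ s s', s ≤ s' → V s' ≤ V s := fun s s' hss c hc i hi => hc i (lt_of_lt_of_le hi hss)
  let Vo : ℕ →o (Submodule k (Fin g → k))ᵒᵈ :=
    ⟨fun s => OrderDual.toDual (V s), fun s s' hss => hVanti s s' hss⟩
  obtain ⟨s₀, hs₀⟩ := IsArtinian.monotone_stabilizes Vo
  have hstab : ∀ s, s₀ ≤ s → V s₀ = V s := fun s hs => hs₀ s hs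
  have hbot : V s₀ = ⊥ := by
    rw [eq_bot_iff]
    intro c hc
    have hsum : ∑ j, c j • f j = 0 := by
      ext a
      rw [HahnSeries.coeff_sum, HahnSeries.coeff_zero]
      simp only [HahnSeries.coeff_smul, smul_eq_mul]
      by_cases ha : 0 < a
      · obtain ⟨i, hi⟩ : ∃ i : ℕ, a = (i : ℤ) + 1 := ⟨(a - 1).toNat, by omega⟩
        have hc' : c ∈ V (max s₀ (i + 1)) := by
          rw [← hstab _ (le_max_left _ _)]; exact hc
        rw [hi]
        exact hc' i (lt_of_lt_of_le (Nat.lt_succ_self i) (le_max_right _ _))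
      · refine Finset.sum_eq_zero fun j _ => ?_
        rw [HahnSeries.coeff_eq_zero_of_lt_order (lt_of_le_of_lt (not_lt.1 ha) (hf0 j)), mul_zero]
    have := Fintype.linearIndependent_iff.1 hf c hsum
    exact (Submodule.mem_bot k).2 (funext this)
  refine ⟨s₀, fun s hs => ?_⟩
  rw [Fintype.linearIndependent_iff]
  intro c hc
  have hcV : c ∈ V s := by
    intro i hi
    have := congrFun hc ⟨i, hi⟩
    simpa [Finset.sum_apply] using this
  rw [← hstab s hs, hbot] at hcV
  intro j
  rw [(Submodule.mem_bot k).1 hcV]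
  rfl

/-- the constant term of a product as a finite sum. -/
theorem LinAlg_coeff_mul_zero (φ f : LaurentSeries k) (s : ℕ)
    (hφ : ∀ i : ℤ, i < -(s : ℤ) → φ.coeff i = 0) (hf0 : 0 < f.order) :
    (φ * f).coeff 0 = ∑ i : Fin s, φ.coeff (-((i : ℤ) + 1)) * f.coeff ((i : ℤ) + 1) := by
  classical
  rw [HahnSeries.coeff_mul]
  have hinj : Function.Injective (fun i : Fin s => ((-((i : ℤ) + 1), (i : ℤ) + 1) : ℤ × ℤ)) := by
    intro i j hij
    have := congrArg Prod.snd hij
    simp only at this
    exact Fin.ext (by omega)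
  rw [← Finset.sum_image (s := Finset.univ)
    (g := fun i : Fin s => ((-((i : ℤ) + 1), (i : ℤ) + 1) : ℤ × ℤ))
    (f := fun ij : ℤ × ℤ => φ.coeff ij.1 * f.coeff ij.2) (fun a _ b _ h => hinj h)]
  refine Finset.sum_subset ?_ ?_
  · rintro ⟨a, b⟩ hab
    rw [Finset.mem_antidiagonal] at hab
    obtain ⟨ha, hb, hab⟩ := hab
    simp only at ha hb hab
    have ha' : -(s : ℤ) ≤ a := by
      by_contra hcon
      exact ha (hφ a (not_le.1 hcon))
    have hb' : 0 < b := by
      by_contra hcon
      exact hb (HahnSeries.coeff_eq_zero_of_lt_order (lt_of_le_of_lt (not_lt.1 hcon) hf0))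
    rw [Finset.mem_image]
    refine ⟨⟨(b - 1).toNat, by omega⟩, Finset.mem_univ _, ?_⟩
    ext <;> simp <;> omega
  · rintro ⟨a, b⟩ hab hnot
    rw [Finset.mem_image] at hab
    obtain ⟨i, -, hi⟩ := hab
    rw [Finset.mem_antidiagonal] at hnot
    simp only [HahnSeries.mem_support, not_and] at hnot
    have hsum : a + b = 0 := by
      have h1 := congrArg Prod.fst hi
      have h2 := congrArg Prod.snd hi
      simp only at h1 h2
      omega
    by_cases ha : φ.coeff a = 0
    · simp [ha]
    · by_cases hb : f.coeff b = 0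
      · simp [hb]
      · exact absurd hsum (hnot ha hb)

theorem finrank_le_of_ct (S : Submodule k (LaurentSeries k)) (s g : ℕ)
    (hS : ∀ φ ∈ S, ∀ i : ℤ, i < -(s : ℤ) → φ.coeff i = 0)
    (f : Fin g → LaurentSeries k) (hf0 : ∀ j, 0 < (f j).order)
    (hfs : LinearIndependent k (fun j : Fin g => fun i : Fin s => (f j).coeff ((i : ℤ) + 1)))
    (hb1 : ∀ φ ∈ S, (∀ i : ℤ, i < 0 → φ.coeff i = 0) → ∃ c : k, φ = HahnSeries.C c)
    (hb2 : ∀ φ ∈ S, ∀ j, (φ * f j).coeff 0 = 0) :
    Module.Finite k S ∧ Module.finrank k S + g ≤ s + 1 := by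
  classical
  -- polar part
  let π : S →ₗ[k] (Fin s → k) :=
    { toFun := fun φ i => (φ : LaurentSeries k).coeff (-((i : ℤ) + 1))
      map_add' := fun a b => by ext i; simp
      map_smul' := fun r a => by ext i; simp }
  let c0 : S →ₗ[k] k :=
    { toFun := fun φ => (φ : LaurentSeries k).coeff 0
      map_add' := fun a b => by simp
      map_smul' := fun r a => by simp }
  have hker : ∀ φ : S, π φ = 0 → (φ : LaurentSeries k) = HahnSeries.C (c0 φ) := by
    intro φ hφ
    have hneg : ∀ i : ℤ, i < 0 → (φ : LaurentSeries k).coeff i = 0 := by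
      intro i hi
      by_cases his : i < -(s : ℤ)
      · exact hS φ φ.2 i his
      · have := congrFun hφ ⟨(-i - 1).toNat, by omega⟩
        have h2 : -((((⟨(-i - 1).toNat, by omega⟩ : Fin s) : ℕ) : ℤ) + 1) = i := by
          simp only
          omega
        simp only [π, LinearMap.coe_mk, AddHom.coe_mk, Pi.zero_apply] at this
        rw [h2] at this
        exact this
    obtain ⟨c, hc⟩ := hb1 φ φ.2 hneg
    have : c0 φ = c := by
      show (φ : LaurentSeries k).coeff 0 = c
      rw [hc]
      simp
    rw [this, hc]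
  have hinj : Function.Injective (π.prod c0) := by
    rw [injective_iff_map_eq_zero]
    intro φ hφ
    have hφ1 : π φ = 0 := congrArg Prod.fst hφ
    have hφ2 : c0 φ = 0 := congrArg Prod.snd hφ
    have := hker φ hφ1
    rw [hφ2, map_zero] at this
    exact Subtype.ext this
  have hfin : Module.Finite k S := Module.Finite.of_injective (π.prod c0) hinj
  refine ⟨hfin, ?_⟩
  -- the functionals
  let A : Matrix (Fin g) (Fin s) k := Matrix.of fun j i => (f j).coeff ((i : ℤ) + 1)
  have hrank : A.rank = g := by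
    have := LinearIndependent.rank_matrix (M := A) hfs
    simpa using this
  have hrange : LinearMap.range π ≤ LinearMap.ker A.mulVecLin := by
    rintro _ ⟨φ, rfl⟩
    rw [LinearMap.mem_ker]
    ext j
    have h1 := hb2 φ φ.2 j
    rw [LinAlg_coeff_mul_zero _ _ s (hS φ φ.2) (hf0 j)] at h1
    simp only [Matrix.mulVecLin_apply, Matrix.mulVec, dotProduct, Pi.zero_apply]
    rw [← h1]
    exact Finset.sum_congr rfl fun i _ => mul_comm _ _
  have h1 : Module.finrank k (LinearMap.range A.mulVecLin) +
      Module.finrank k (LinearMap.ker A.mulVecLin) = s := by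
    have := LinearMap.finrank_range_add_finrank_ker A.mulVecLin
    simpa using this
  have h2 : Module.finrank k (LinearMap.range A.mulVecLin) = g := hrank
  have h3 : Module.finrank k (LinearMap.range π) ≤ Module.finrank k (LinearMap.ker A.mulVecLin) :=
    Submodule.finrank_mono hrange
  have h4 : Module.finrank k (LinearMap.ker π) ≤ 1 := by
    have hinj' : Function.Injective (c0.comp (LinearMap.ker π).subtype) := by
      rw [injective_iff_map_eq_zero]
      intro φ hφ
      have h5 := hker φ.1 φ.2
      have h6 : c0 φ.1 = 0 := hφ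
      rw [h6, map_zero] at h5
      exact Subtype.ext (Subtype.ext h5)
    have := LinearMap.finrank_le_finrank_of_injective hinj'
    simpa using this
  have h5 := LinearMap.finrank_range_add_finrank_ker π
  omega

end Fermat.Agent.GAL.KLB
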