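import Fermat.Agent.GAL.KLB.Base

/-!
# GAL / KLB-6 : `k[[q]]` is integrally closed in `k((q))`; pole order bound.
-/

set_option autoImplicit false

open Polynomial

noncomputable section

namespace Fermat.Agent.GAL.KLB

open Fermat.Agent.GAL.KL Fermat.Agent.GAL.KLC

variable {k : Type*} [Field k]

/-- a Laurent series without negative coefficients is a power series. -/
theorem Ord_exists_powerSeries {η : LaurentSeries k} (hη : ∀ i : ℤ, i < 0 → η.coeff i = 0) :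
    ∃ η₀ : PowerSeries k, (η₀ : LaurentSeries k) = η := by
  refine ⟨PowerSeries.mk fun n => η.coeff n, ?_⟩
  ext i
  rcases lt_or_ge i 0 with hi | hi
  · rw [hη i hi, PowerSeries.coeff_coe, if_pos hi]
  · obtain ⟨n, rfl⟩ := Int.eq_ofNat_of_zero_le hi
    rw [PowerSeries.coeff_coe]
    simp

theorem Ord_coeff_coe_neg (η₀ : PowerSeries k) (i : ℤ) (hi : i < 0) :
    (η₀ : LaurentSeries k).coeff i = 0 := by
  rw [PowerSeries.coeff_coe, if_pos hi]

theorem coeff_eq_zero_of_isInt {η φ : LaurentSeries k} (hη : ∀ i : ℤ, i < 0 → η.coeff i = 0)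
    (hφ : IsInt k η φ) : ∀ i : ℤ, i < 0 → φ.coeff i = 0 := by
  obtain ⟨η₀, rfl⟩ := Ord_exists_powerSeries hη
  obtain ⟨p, hp, hp0⟩ := hφ
  have hcomp : ((aeval (η₀ : LaurentSeries k) : k[X] →ₐ[k] LaurentSeries k) : k[X] →+* LaurentSeries k)
      = (algebraMap (PowerSeries k) (LaurentSeries k)).comp
        ((aeval η₀ : k[X] →ₐ[k] PowerSeries k) : k[X] →+* PowerSeries k) := by
    apply Polynomial.ringHom_ext
    · intro a
      simp only [RingHom.coe_coe, aeval_C, RingHom.comp_apply]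
      rfl
    · simp
  have hint : IsIntegral (PowerSeries k) φ := by
    refine ⟨p.map ((aeval η₀ : k[X] →ₐ[k] PowerSeries k) : k[X] →+* PowerSeries k), hp.map _, ?_⟩
    rw [Polynomial.eval₂_map, ← hcomp]
    exact hp0
  obtain ⟨y, hy⟩ := (IsIntegrallyClosed.isIntegral_iff (R := PowerSeries k)
    (K := LaurentSeries k)).mp hint
  intro i hi
  rw [← hy]
  exact Ord_coeff_coe_neg y i hi

theorem coeff_eq_zero_of_isInt_inv {ξ φ : LaurentSeries k} {m : ℕ} (hξ : ξ.order = -(m : ℤ))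
    (hm : 0 < m) (a : ℕ) (hφ : IsInt k ξ⁻¹ (ξ⁻¹ ^ a * φ)) :
    ∀ i : ℤ, i < -((a * m : ℕ) : ℤ) → φ.coeff i = 0 := by
  have hξ0 : ξ ≠ 0 := by
    rintro rfl
    rw [HahnSeries.order_zero] at hξ
    omega
  have hinv0 : ξ⁻¹ ≠ 0 := inv_ne_zero hξ0
  have hordinv : (ξ⁻¹).order = (m : ℤ) := by
    have h1 : (ξ * ξ⁻¹).order = ξ.order + (ξ⁻¹).order := HahnSeries.order_mul hξ0 hinv0
    rw [mul_inv_cancel₀ hξ0, HahnSeries.order_one, hξ] at h1
    omega
  have hη : ∀ i : ℤ, i < 0 → (ξ⁻¹).coeff i = 0 := fun i hi =>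
    HahnSeries.coeff_eq_zero_of_lt_order (by rw [hordinv]; omega)
  have hψ := coeff_eq_zero_of_isInt hη hφ
  intro i hi
  by_cases hφ0 : φ = 0
  · rw [hφ0]; rfl
  apply HahnSeries.coeff_eq_zero_of_lt_order
  have hψ0 : ξ⁻¹ ^ a * φ ≠ 0 := mul_ne_zero (pow_ne_zero _ hinv0) hφ0
  have hord : 0 ≤ (ξ⁻¹ ^ a * φ).order := by
    by_contra hlt
    exact hψ0 (HahnSeries.coeff_order_eq_zero.mp (hψ _ (not_le.mp hlt)))
  rw [HahnSeries.order_mul (pow_ne_zero _ hinv0) hφ0, HahnSeries.order_pow, hordinv] at hord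
  have : ((a * m : ℕ) : ℤ) = a • (m : ℤ) := by push_cast; simp
  rw [this] at hi
  linarith

end Fermat.Agent.GAL.KLB
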