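import Fermat.Agent.GAL.KLB.Red
import Fermat.Agent.GAL.KLB.Func
import Fermat.Agent.GAL.KLB.IntRed
import Fermat.Agent.GAL.KLB.LinAlg
import Fermat.Agent.GAL.KLB.B1
import Fermat.Agent.GAL.KLB.Ord
import Fermat.Agent.GAL.KLC.GaussON

/-!
# GAL / KLB : the dimension count.  `ρ (𝓛_a ∩ O_v) = B̄_a` and root closedness of both reduced charts.
-/

set_option autoImplicit false

open Polynomial

noncomputable section

namespace Fermat.Agent.GAL.KLB

open Fermat.Agent.GAL.KL Fermat.Agent.GAL.KLC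

variable {K F k Γ₀ : Type*} [Field K] [Field F] [Algebra K F] [Field k]
  [LinearOrderedCommGroupWithZero Γ₀] {v : Valuation F Γ₀} {ρ : v.integer →+* LaurentSeries k}

/-- `B̄_a` : elements `φ` of the residue field `F̄ = range ρ`, integral over `k[ξ]`, with
`ξ^{-a} φ` integral over `k[ξ⁻¹]`. -/
def Bbar (hρ : IsRed K v ρ) (ξ : LaurentSeries k) (a : ℕ) : Submodule k (LaurentSeries k) where
  carrier := {φ | (IsInt k ξ φ ∧ IsInt k ξ⁻¹ (ξ⁻¹ ^ a * φ)) ∧ ∃ z : v.integer, ρ z = φ}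
  add_mem' := by
    rintro _ _ ⟨⟨h1, h2⟩, z, rfl⟩ ⟨⟨h1', h2'⟩, z', rfl⟩
    exact ⟨⟨h1.add h1', by rw [mul_add]; exact h2.add h2'⟩, z + z', map_add _ _ _⟩
  zero_mem' := ⟨⟨IsInt.zero, by rw [mul_zero]; exact IsInt.zero⟩, 0, map_zero _⟩
  smul_mem' := by
    rintro c _ ⟨⟨h1, h2⟩, z, rfl⟩
    have hc : c • ρ z = algebraMap k (LaurentSeries k) c * ρ z := by
      rw [ModularCurve.algebraMap_laurentSeries_eq_single]
      exact (HahnSeries.C_mul_eq_smul).symm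
    obtain ⟨b, rfl⟩ := resK_surjective hρ c
    refine ⟨⟨?_, ?_⟩, toInt K v b * z, ?_⟩
    · rw [hc]; exact (IsInt.algebraMap _).mul h1
    · rw [hc, mul_left_comm]; exact (IsInt.algebraMap _).mul h2
    · rw [map_mul, rho_toInt' hρ, HahnSeries.C_mul_eq_smul]

theorem mem_Bbar (hρ : IsRed K v ρ) {ξ φ : LaurentSeries k} {a : ℕ} :
    φ ∈ Bbar hρ ξ a ↔ (IsInt k ξ φ ∧ IsInt k ξ⁻¹ (ξ⁻¹ ^ a * φ)) ∧ ∃ z : v.integer, ρ z = φ :=
  Iff.rfl

/-- the inverse of an element of valuation one, as an element of `O_v`. -/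
def invInt (x : v.integer) (hx : v (x : F) = 1) : v.integer :=
  ⟨(x : F)⁻¹, by rw [Valuation.mem_integer_iff, map_inv₀, hx, inv_one]⟩

theorem rho_invInt (x : v.integer) (hx : v (x : F) = 1) : ρ (invInt x hx) = (ρ x)⁻¹ := by
  have hx0 : (x : F) ≠ 0 := by
    intro h
    rw [h, map_zero] at hx
    exact zero_ne_one hx
  have h1 : invInt x hx * x = 1 := Subtype.ext (inv_mul_cancel₀ hx0)
  have h2 := congrArg ρ h1
  rw [map_mul, map_one] at h2
  exact eq_inv_of_mul_eq_one_left h2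

section Count

variable [IsAlgClosed K] [CharZero K] (hρ : IsRed K v ρ) (x : v.integer) {d : ℕ} {β : Fin d → F}

include hρ in
theorem redW_LL_le (hG : Gauss K v (x : F)) (hβ : ON K v (x : F) β) (hβs : Spans K (x : F) β)
    (a : ℕ) : redW hρ (LL K (x : F) a) ≤ Bbar hρ (ρ x) a := by
  rintro _ ⟨z, hz, rfl⟩
  rw [mem_Bbar]
  refine ⟨⟨isInt_rho hρ x hG β hβ hβs z hz.1, ?_⟩, z, rfl⟩
  have h1 := isInt_rho hρ (invInt x hG.v_t) hG.inv β (hβ.inv hG) (hβs.inv hG.ne_zero)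
    (invInt x hG.v_t ^ a * z) hz.2
  rwa [map_mul, map_pow, rho_invInt] at h1

end Count

section Main

variable [IsAlgClosed K] [CharZero K] (hρ : IsRed K v ρ) {x x' : F}
    (hx : x ∈ v.integer) (hx' : x' ∈ v.integer) {m : ℕ} (hm : 0 < m)
    (hxo : (ρ ⟨x, hx⟩).order = -(m : ℤ)) (hxo' : (ρ ⟨x', hx'⟩).order = -(m : ℤ) + 1)
    (hSp : Spans K x (fun i : Fin m => x' ^ (i : ℕ))) {g : ℕ}
    (hRI : ∀ a : ℕ, ((a * m + 1 : ℕ) : ℤ) - g ≤ Module.finrank K (LL K x a))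
    (f : Fin g → LaurentSeries k) (hf : LinearIndependent k f) (hf0 : ∀ j, 0 < (f j).order)
    (hb2 : ∀ z : v.integer, IsInt k (ρ ⟨x, hx⟩) (ρ z) → ∀ j, (ρ z * f j).coeff 0 = 0)

include hx' hm hxo hxo' hSp hRI hf hf0 hb2 in
/-- **the dimension count**: for `a ≫ 0` the reduction of `𝓛_a ∩ O_v` is all of `B̄_a`, of dimension
`a m + 1 - g`. -/
theorem exists_redW_LL_eq : ∃ a₀ : ℕ, ∀ a, a₀ ≤ a →
    redW hρ (LL K x a) = Bbar hρ (ρ ⟨x, hx⟩) a ∧ Module.Finite k (Bbar hρ (ρ ⟨x, hx⟩) a) ∧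
      Module.finrank k (Bbar hρ (ρ ⟨x, hx⟩) a) + g = a * m + 1 ∧
      Module.finrank K (LL K x a) + g = a * m + 1 := by
  have hG : Gauss K v x := gauss_of_isRed hρ hx (by rw [hxo]; omega)
  have hON := on_of_isRed hρ hx hx' hm hxo hxo'
  obtain ⟨s₀, hs₀⟩ := exists_trunc_linearIndependent f hf hf0
  refine ⟨max s₀ g, fun a ha => ?_⟩
  have ha1 : s₀ ≤ a * m := le_trans (le_trans (le_max_left _ _) ha) (Nat.le_mul_of_pos_right a hm)
  have ha2 : g ≤ a * m := le_trans (le_trans (le_max_right _ _) ha) (Nat.le_mul_of_pos_right a hm)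
  have hB := finrank_le_of_ct (Bbar hρ (ρ ⟨x, hx⟩) a) (a * m) g
    (fun φ hφ => coeff_eq_zero_of_isInt_inv hxo hm a hφ.1.2) f hf0 (hs₀ _ ha1)
    (by
      rintro _ ⟨⟨h1, -⟩, z, rfl⟩ h0
      exact b1_of_isRed hρ hx hx' hm hxo hxo' hG hON hSp z h1 h0)
    (by
      rintro _ ⟨⟨h1, -⟩, z, rfl⟩ j
      exact hb2 z h1 j)
  have hRIa := hRI a
  have hpos : 0 < Module.finrank K (LL K x a) := by
    push_cast at hRIa
    have : (g : ℤ) ≤ a * m := by exact_mod_cast ha2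
    omega
  haveI : FiniteDimensional K (LL K x a) := Module.finite_of_finrank_pos hpos
  obtain ⟨z, hzW, hzli⟩ := exists_linearIndependent_red hρ (hasFun_BBs hG _ hON hSp) (LL K x a)
    (LL_le_BBs x a)
  set T : Submodule k (LaurentSeries k) := Submodule.span k (Set.range fun i => ρ (z i)) with hT
  have hT1 : T ≤ redW hρ (LL K x a) := by
    rw [hT, Submodule.span_le]
    rintro _ ⟨i, rfl⟩
    exact ⟨z i, hzW i, rfl⟩
  have hT2 : Module.finrank k T = Module.finrank K (LL K x a) := by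
    rw [hT, finrank_span_eq_card hzli, Fintype.card_fin]
  have hle : redW hρ (LL K x a) ≤ Bbar hρ (ρ ⟨x, hx⟩) a :=
    redW_LL_le hρ ⟨x, hx⟩ hG hON hSp a
  haveI := hB.1
  have hB2 := hB.2
  have hTB : T = Bbar hρ (ρ ⟨x, hx⟩) a :=
    Submodule.eq_of_le_of_finrank_le (hT1.trans hle) (by
      rw [hT2]
      push_cast at hRIa
      omega)
  refine ⟨le_antisymm hle (hTB ▸ hT1), hB.1, ?_, ?_⟩
  · rw [← hTB, hT2] at hB2 ⊢
    push_cast at hRIa
    omega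
  · rw [← hTB, hT2] at hB2
    push_cast at hRIa
    omega

omit [IsAlgClosed K] [CharZero K] [Field K] [Algebra K F] [Field k] in
theorem le_one_of_pow_sub_lt {y b : F} {n : ℕ} (hyb : v (y ^ n - b) < 1) (hy : v y ≤ 1) :
    v b ≤ 1 := by
  have h1 : b = y ^ n - (y ^ n - b) := by ring
  rw [h1]
  refine le_trans (Valuation.map_sub v _ _) (max_le ?_ hyb.le)
  rw [map_pow]
  exact pow_le_one₀ zero_le' hy

include hρ in
theorem rho_pow_eq {y b : v.integer} {n : ℕ} (hyb : v ((y : F) ^ n - (b : F)) < 1) :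
    ρ y ^ n = ρ b := by
  have h := (hρ.ker (y ^ n - b)).mpr hyb
  rw [map_sub, map_pow, sub_eq_zero] at h
  exact h

include hρ hx' hm hxo hxo' hSp hRI hf hf0 hb2 in
/-- **the dimension count**: both reduced charts are `n`-root closed. -/
theorem rootClosed_of_count (n : ℕ) (hn : 0 < n) : RootClosed K v x n ∧ RootClosed K v x⁻¹ n := by
  have hG : Gauss K v x := gauss_of_isRed hρ hx (by rw [hxo]; omega)
  have hON := on_of_isRed hρ hx hx' hm hxo hxo'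
  obtain ⟨a₀, ha₀⟩ := exists_redW_LL_eq hρ hx hx' hm hxo hxo' hSp hRI f hf hf0 hb2
  set X : v.integer := ⟨x, hx⟩ with hX
  have hξ0 : ρ X ≠ 0 := by
    intro h
    rw [h, HahnSeries.order_zero] at hxo
    omega
  constructor
  · intro y b hb hyb hy
    have hb1 : v b ≤ 1 := le_one_of_pow_sub_lt hyb hy
    have h1 : ρ (⟨y, hy⟩ : v.integer) ^ n = ρ (⟨b, hb1⟩ : v.integer) := rho_pow_eq hρ hyb
    have h2 : IsInt k (ρ X) (ρ (⟨b, hb1⟩ : v.integer)) := isInt_rho hρ X hG _ hON hSp ⟨b, hb1⟩ hb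
    rw [← h1] at h2
    have h3 : IsInt k (ρ X) (ρ (⟨y, hy⟩ : v.integer)) := h2.of_pow hn
    obtain ⟨m₀, hm₀⟩ := IsInt.shift (t := (ρ X)⁻¹) (inv_ne_zero hξ0) (by rw [inv_inv]; exact h3)
    have hmem : ρ (⟨y, hy⟩ : v.integer) ∈ Bbar hρ (ρ X) (max a₀ m₀) :=
      ⟨⟨h3, hm₀ _ (le_max_right _ _)⟩, _, rfl⟩
    rw [← (ha₀ _ (le_max_left _ _)).1] at hmem
    obtain ⟨z, hz, hzρ⟩ := hmem
    refine ⟨z, hz.1, ?_⟩
    have := (hρ.ker ((⟨y, hy⟩ : v.integer) - z)).mp (by rw [map_sub, hzρ, sub_self])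
    exact this
  · intro y b hb hyb hy
    have hb1 : v b ≤ 1 := le_one_of_pow_sub_lt hyb hy
    have h1 : ρ (⟨y, hy⟩ : v.integer) ^ n = ρ (⟨b, hb1⟩ : v.integer) := rho_pow_eq hρ hyb
    have h2 : IsInt k (ρ (invInt X hG.v_t)) (ρ (⟨b, hb1⟩ : v.integer)) :=
      isInt_rho hρ (invInt X hG.v_t) hG.inv _ (hON.inv hG) (hSp.inv hG.ne_zero) ⟨b, hb1⟩ hb
    rw [← h1, rho_invInt] at h2
    have h3 : IsInt k (ρ X)⁻¹ (ρ (⟨y, hy⟩ : v.integer)) := h2.of_pow hn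
    obtain ⟨m₀, hm₀⟩ := IsInt.shift (t := ρ X) hξ0 h3
    set a := max a₀ m₀ with ha
    have hmem : ρ (X ^ a * (⟨y, hy⟩ : v.integer)) ∈ Bbar hρ (ρ X) a := by
      refine ⟨⟨?_, ?_⟩, _, rfl⟩
      · rw [map_mul, map_pow]
        exact hm₀ _ (le_max_right _ _)
      · rw [map_mul, map_pow, ← mul_assoc, ← mul_pow, inv_mul_cancel₀ hξ0, one_pow, one_mul]
        exact h3
    rw [← (ha₀ _ (le_max_left _ _)).1] at hmem
    obtain ⟨z, hz, hzρ⟩ := hmem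
    refine ⟨x⁻¹ ^ a * z, hz.2, ?_⟩
    have := (hρ.ker ((⟨y, hy⟩ : v.integer) - invInt X hG.v_t ^ a * z)).mp (by
      rw [map_sub, map_mul, map_pow, rho_invInt, hzρ, map_mul, map_pow, ← mul_assoc, ← mul_pow,
        inv_mul_cancel₀ hξ0, one_pow, one_mul, sub_self])
    exact this

end Main

end Fermat.Agent.GAL.KLB
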