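import Fermat.Agent.GAL.KLC.Defs

/-!
# GAL / KLB : block DIM of the key lemma (abstract dimension count).  Base definitions (no sorry).

Setting (`KLC.IsRed`): `F/K` fields, `v` a valuation on `F`, `ρ : O_v → k((q))` a reduction map.
* `AK v`      : the valuation ring of `K` induced by `v`
* `resK hρ`   : the residue map `AK v → k` (`ρ (a) = C (resK a)`)
* `redW hρ W` : the `k`-subspace `ρ (W ∩ O_v)` of `k((q))`, for a `K`-subspace `W` of `F`
* `BBs K t`   : the chart ring `BB K t` as a `K`-subspace
* `HasFun K v U` : `U` has enough norm-attaining contracting functionals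
-/

set_option autoImplicit false

open Polynomial

noncomputable section

namespace Fermat.Agent.GAL.KLB

open Fermat.Agent.GAL.KL Fermat.Agent.GAL.KLC

variable {K F k Γ₀ : Type*} [Field K] [Field F] [Algebra K F] [Field k]
  [LinearOrderedCommGroupWithZero Γ₀] {v : Valuation F Γ₀} {ρ : v.integer →+* LaurentSeries k}

/-- the valuation ring of `K`. -/
def AK (K : Type*) {F Γ₀ : Type*} [Field K] [Field F] [Algebra K F]
    [LinearOrderedCommGroupWithZero Γ₀] (v : Valuation F Γ₀) : Subring K :=
  (v.comap (algebraMap K F)).integer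

theorem mem_AK {a : K} : a ∈ AK K v ↔ v (algebraMap K F a) ≤ 1 := Iff.rfl

/-- `AK v → O_v`. -/
def toInt (K : Type*) {F Γ₀ : Type*} [Field K] [Field F] [Algebra K F]
    [LinearOrderedCommGroupWithZero Γ₀] (v : Valuation F Γ₀) : AK K v →+* v.integer where
  toFun a := ⟨algebraMap K F a, a.2⟩
  map_one' := Subtype.ext (map_one _)
  map_mul' a b := Subtype.ext (map_mul _ _ _)
  map_zero' := Subtype.ext (map_zero _)
  map_add' a b := Subtype.ext (map_add _ _ _)

@[simp] theorem coe_toInt (a : AK K v) : ((toInt K v a : v.integer) : F) = algebraMap K F a := rfl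

theorem C_injective' : Function.Injective (HahnSeries.C : k → LaurentSeries k) :=
  HahnSeries.C_injective

/-- the residue map on constants, as a function. -/
def resFun (hρ : IsRed K v ρ) (a : AK K v) : k := (hρ.const a a.2).choose

theorem rho_toInt (hρ : IsRed K v ρ) (a : AK K v) :
    ρ (toInt K v a) = HahnSeries.C (resFun hρ a) := (hρ.const a a.2).choose_spec

/-- the residue map `AK v → k`. -/
def resK (hρ : IsRed K v ρ) : AK K v →+* k where
  toFun := resFun hρ
  map_one' := C_injective' (by rw [← rho_toInt, map_one, map_one, map_one])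
  map_mul' a b := C_injective' (by rw [← rho_toInt, map_mul, map_mul, map_mul, rho_toInt, rho_toInt])
  map_zero' := C_injective' (by rw [← rho_toInt, map_zero, map_zero, map_zero])
  map_add' a b := C_injective' (by rw [← rho_toInt, map_add, map_add, map_add, rho_toInt, rho_toInt])

theorem rho_toInt' (hρ : IsRed K v ρ) (a : AK K v) :
    ρ (toInt K v a) = HahnSeries.C (resK hρ a) := rho_toInt hρ a

theorem resK_surjective (hρ : IsRed K v ρ) : Function.Surjective (resK hρ) := by
  intro c
  obtain ⟨a, ha, h⟩ := hρ.const_surj c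
  refine ⟨⟨a, ha⟩, C_injective' ?_⟩
  rw [← rho_toInt' hρ]
  exact h

theorem resK_eq_zero_iff (hρ : IsRed K v ρ) (a : AK K v) :
    resK hρ a = 0 ↔ v (algebraMap K F a) < 1 := by
  have h := hρ.ker (toInt K v a)
  rw [rho_toInt' hρ, map_eq_zero] at h
  exact h

/-- the reduction of `ρ (W ∩ O_v)`. -/
def redW (hρ : IsRed K v ρ) (W : Submodule K F) : Submodule k (LaurentSeries k) where
  carrier := {φ | ∃ z : v.integer, (z : F) ∈ W ∧ ρ z = φ}
  add_mem' := by
    rintro _ _ ⟨z, hz, rfl⟩ ⟨z', hz', rfl⟩
    exact ⟨z + z', W.add_mem hz hz', map_add _ _ _⟩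
  zero_mem' := ⟨0, W.zero_mem, map_zero _⟩
  smul_mem' := by
    rintro c _ ⟨z, hz, rfl⟩
    obtain ⟨a, rfl⟩ := resK_surjective hρ c
    refine ⟨toInt K v a * z, ?_, ?_⟩
    · have : ((toInt K v a * z : v.integer) : F) = (a : K) • (z : F) := by
        rw [Algebra.smul_def]; rfl
      rw [this]
      exact W.smul_mem _ hz
    · rw [map_mul, rho_toInt' hρ, HahnSeries.C_mul_eq_smul]

theorem mem_redW (hρ : IsRed K v ρ) {W : Submodule K F} {φ : LaurentSeries k} :
    φ ∈ redW hρ W ↔ ∃ z : v.integer, (z : F) ∈ W ∧ ρ z = φ := Iff.rfl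

/-- evaluation of polynomials with integral coefficients commutes with the reduction. -/
theorem rho_aeval (hρ : IsRed K v ρ) (t : v.integer) (p : (AK K v)[X]) :
    ρ (eval₂ (toInt K v) t p) = aeval (ρ t) (p.map (resK hρ)) := by
  induction p using Polynomial.induction_on' with
  | add p q hp hq => rw [eval₂_add, map_add, hp, hq, Polynomial.map_add, map_add]
  | monomial n a =>
    rw [eval₂_monomial, map_mul, map_pow, rho_toInt' hρ, Polynomial.map_monomial, aeval_monomial]
    congr 1
    exact (ModularCurve.algebraMap_laurentSeries_eq_single k _).symm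

theorem coe_eval₂_toInt (t : v.integer) (p : (AK K v)[X]) :
    ((eval₂ (toInt K v) t p : v.integer) : F) = aeval (t : F) (p.map (AK K v).subtype) := by
  induction p using Polynomial.induction_on' with
  | add p q hp hq =>
    rw [eval₂_add, Polynomial.map_add, map_add, ← hp, ← hq]; rfl
  | monomial n a =>
    rw [eval₂_monomial, Polynomial.map_monomial, aeval_monomial]; rfl

/-- a polynomial over `K` with integral coefficients comes from `(AK v)[X]`. -/
theorem exists_lift_poly (p : K[X]) (hp : ∀ i, v (algebraMap K F (p.coeff i)) ≤ 1) :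
    ∃ P : (AK K v)[X], P.map (AK K v).subtype = p := by
  have : p ∈ Polynomial.lifts (AK K v).subtype := by
    rw [Polynomial.lifts_iff_coeff_lifts]
    intro n
    exact ⟨⟨p.coeff n, hp n⟩, rfl⟩
  exact this

/-- the chart ring as a `K`-subspace of `F`. -/
def BBs (K : Type*) {F : Type*} [Field K] [Field F] [Algebra K F] (t : F) : Submodule K F where
  carrier := BB K t
  add_mem' := fun h h' => IsInt.add h h'
  zero_mem' := IsInt.zero
  smul_mem' := fun c z h => by
    rw [Algebra.smul_def]; exact (IsInt.algebraMap c).mul h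

theorem mem_BBs {t z : F} : z ∈ BBs K t ↔ IsInt K t z := Iff.rfl

theorem LL_le_BBs (t : F) (a : ℕ) : LL K t a ≤ BBs K t := fun _ h => h.1

/-- `U` has enough norm-attaining contracting `K`-linear functionals. -/
def HasFun (K : Type*) {F Γ₀ : Type*} [Field K] [Field F] [Algebra K F]
    [LinearOrderedCommGroupWithZero Γ₀] (v : Valuation F Γ₀) (U : Submodule K F) : Prop :=
  ∀ z ∈ U, z ≠ 0 → ∃ lam : F →ₗ[K] K, v (algebraMap K F (lam z)) = v z ∧
    ∀ z' ∈ U, v (algebraMap K F (lam z')) ≤ v z'

end Fermat.Agent.GAL.KLB
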