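import Fermat.Agent.GAL.KLB.Base

/-!
# GAL / KLB-1 : RED.  A finite dimensional subspace `W ≤ U` (with `U` having enough norm attaining
contracting functionals) has `dim W` integral elements with linearly independent reductions.
-/

set_option autoImplicit false

open Polynomial

noncomputable section

namespace Fermat.Agent.GAL.KLB

open Fermat.Agent.GAL.KL Fermat.Agent.GAL.KLC

variable {K F k Γ₀ : Type*} [Field K] [Field F] [Algebra K F] [Field k]
  [LinearOrderedCommGroupWithZero Γ₀] {v : Valuation F Γ₀} {ρ : v.integer →+* LaurentSeries k}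

theorem Red_aux (hρ : IsRed K v ρ) {U : Submodule K F} (hU : HasFun K v U) (n : ℕ) :
    ∀ (W : Submodule K F), W ≤ U → FiniteDimensional K W → Module.finrank K W = n →
    ∃ z : Fin n → v.integer,
      (∀ i, (z i : F) ∈ W) ∧ LinearIndependent k (fun i => ρ (z i)) := by
  induction n with
  | zero =>
    intro W _ _ _
    exact ⟨Fin.elim0, fun i => i.elim0, linearIndependent_empty_type⟩
  | succ n ih =>
    intro W hW hfd hn
    -- a nonzero element
    have hWne : W ≠ ⊥ := by
      intro h
      rw [h, finrank_bot] at hn
      omega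
    obtain ⟨z0, hz0W, hz0⟩ := Submodule.exists_mem_ne_zero_of_ne_bot hWne
    obtain ⟨a, ha⟩ := hρ.val z0 hz0
    have hvz0 : v z0 ≠ 0 := (Valuation.ne_zero_iff v).mpr hz0
    have ha0 : a ≠ 0 := by
      rintro rfl
      rw [map_zero, map_zero] at ha
      exact hvz0 ha
    set z1 : F := a⁻¹ • z0 with hz1
    have hz1W : z1 ∈ W := W.smul_mem _ hz0W
    have hvz1 : v z1 = 1 := by
      rw [hz1, Algebra.smul_def, map_mul, map_inv₀, map_inv₀, ha]
      exact inv_mul_cancel₀ (ha ▸ hvz0)
    have hz1ne : z1 ≠ 0 := by
      intro h
      rw [h, map_zero] at hvz1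
      exact zero_ne_one hvz1
    obtain ⟨lam, hlam1, hlam⟩ := hU z1 (hW hz1W) hz1ne
    rw [hvz1] at hlam1
    have hlamz1 : lam z1 ≠ 0 := by
      intro h
      rw [h, map_zero, map_zero] at hlam1
      exact zero_ne_one hlam1
    set W' : Submodule K F := W ⊓ LinearMap.ker lam with hW'
    have hW'W : W' ≤ W := inf_le_left
    have : FiniteDimensional K W := hfd
    have hfd' : FiniteDimensional K W' := Submodule.finiteDimensional_of_le hW'W
    have hn' : Module.finrank K W' = n := by
      -- restrict lam to W
      set lamW : W →ₗ[K] K := lam.domRestrict W with hlamW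
      have hsurj : Function.Surjective lamW := by
        intro c
        refine ⟨(c * (lam z1)⁻¹) • ⟨z1, hz1W⟩, ?_⟩
        rw [map_smul, hlamW, LinearMap.domRestrict_apply, smul_eq_mul]
        simp only
        rw [mul_assoc, inv_mul_cancel₀ hlamz1, mul_one]
      have h1 := LinearMap.finrank_range_add_finrank_ker lamW
      rw [LinearMap.range_eq_top.mpr hsurj, finrank_top, Module.finrank_self, hn] at h1
      have h2 : Module.finrank K (LinearMap.ker lamW) = Module.finrank K W' := by
        have : W' = (LinearMap.ker lamW).map W.subtype := by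
          ext y
          simp only [hW', Submodule.mem_inf, LinearMap.mem_ker, Submodule.mem_map,
            Submodule.subtype_apply, Subtype.exists, exists_and_right, exists_eq_right, hlamW,
            LinearMap.domRestrict_apply]
          constructor
          · rintro ⟨h, h'⟩; exact ⟨h, h'⟩
          · rintro ⟨h, h'⟩; exact ⟨h, h'⟩
        rw [this]
        exact (LinearEquiv.finrank_eq
          (Submodule.equivMapOfInjective W.subtype W.injective_subtype _))
      omega
    obtain ⟨z', hz'W, hz'li⟩ := ih W' (hW'W.trans hW) hfd' hn'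
    have hz1int : z1 ∈ v.integer := by
      rw [Valuation.mem_integer_iff, hvz1]
    refine ⟨Fin.cons ⟨z1, hz1int⟩ z', ?_, ?_⟩
    · intro i
      refine Fin.cases ?_ (fun j => ?_) i
      · simpa using hz1W
      · simpa using hW'W (hz'W j)
    · have hfun : (fun i => ρ ((Fin.cons ⟨z1, hz1int⟩ z' : Fin (n + 1) → v.integer) i)) =
          Fin.cons (ρ ⟨z1, hz1int⟩) (fun i => ρ (z' i)) := by
        funext i
        refine Fin.cases ?_ (fun j => ?_) i
        · simp
        · simp
      rw [hfun, linearIndependent_finCons]
      refine ⟨hz'li, ?_⟩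
      intro hmem
      have hle : Submodule.span k (Set.range fun i => ρ (z' i)) ≤ redW hρ W' := by
        rw [Submodule.span_le]
        rintro _ ⟨i, rfl⟩
        exact ⟨z' i, hz'W i, rfl⟩
      obtain ⟨z'', hz''W, hz''⟩ := hle hmem
      have hker : ρ (⟨z1, hz1int⟩ - z'') = 0 := by
        rw [map_sub, hz'', sub_self]
      have hlt : v (z1 - (z'' : F)) < 1 := (hρ.ker _).mp hker
      have hU' : z1 - (z'' : F) ∈ U := U.sub_mem (hW hz1W) (hW (hW'W hz''W))
      have h3 := hlam _ hU'
      have h4 : lam (z'' : F) = 0 := hz''W.2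
      rw [map_sub, h4, sub_zero, hlam1] at h3
      exact absurd hlt (not_lt.mpr h3)

/-- **RED**: a finite dimensional subspace `W` of `U` has `dim W` integral elements with linearly
independent reductions. -/
theorem exists_linearIndependent_red (hρ : IsRed K v ρ) {U : Submodule K F} (hU : HasFun K v U)
    (W : Submodule K F) (hW : W ≤ U) [FiniteDimensional K W] :
    ∃ z : Fin (Module.finrank K W) → v.integer,
      (∀ i, (z i : F) ∈ W) ∧ LinearIndependent k (fun i => ρ (z i)) :=
  Red_aux hρ hU _ W hW inferInstance rfl

end Fermat.Agent.GAL.KLB
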